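/-
S17 project — package H (heights), SHARED DEFINITIONS (sub-architect helper2014).  FROZEN v2 (03:58 UTC).
(v2: aligned with `Fermat/Agent/S17/FND/Defs.lean` of helper8457: uses FND `evalAt`, `pt`, `divF`, `ell`, the Prelude
`riemannRochSpace` and `genusFF`; effectivity is `0 ≤ D`; the v1 notions `RRSpace`, `IsGenus`, `IsEffective`, and the
fields `Setup.g`, `Setup.genus` are GONE.  Nothing else changed.)

Everything the height packages HT / INC / CERT / QF talk about is defined here, with NO proofs:
  * `IsRigid D`             `0 ≤ D ∧ ell D = 1`  (the only effective divisor of its class, FND `eq_of_ell_eq_one`)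
  * `size D`, `Lam δ D E` (the EXACTLY bilinear pairing on divisors), `hSum`, `qForm`
  * `hbar x`                absolute logarithmic Weil height of a finite tuple of algebraic numbers
  * `pointVec φ P`, `derivVec φ P`, `minorVec φ P Q`, `gaussVec φ P`, `hX φ P`, `delta φ P Q`
      projective coordinates of a place in the map given by `φ`, the 2×2 minors (diagonal form),
      the Gauss (tangent) vector, the point height and the Δ-height with the DIAGONAL CONVENTION
      `delta φ P P = 2 hX φ P − hbar (gaussVec φ P)`   (= −h_K(P) + O(1), "O(Δ)|Δ = −K").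
  * `Setup F₀`              Galois-fixed `P₀`, rational basis `φ` of `L(m P₀)`, `m ≥ mMin g`, `φ 0 = 1`.
Mathematics: origin/helper2014:notes/MAZUR_scout_helper2014.md §2, origin/helper4498:notes/S17_route_helper4498.md.
-/
import Mathlib
import Fermat.Prelude.Def_ModularCurve_ArithmeticGalois
import Fermat.Agent.S17.FND.Defs

set_option autoImplicit false

noncomputable section

open AlgebraicCurve ModularCurve

namespace Fermat.Agent.S17.H

open Fermat.Agent.S17.FND

/-! ### Generic function-field notions -/

section Generic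

variable {K F : Type*} [Field K] [Field F] [Algebra K F]

/-- `D` is effective with `ℓ(D) = 1`: the ONLY effective divisor in its linear equivalence class. -/
def IsRigid (D : Divisor K F) : Prop := 0 ≤ D ∧ ell D = 1

/-- Size (mass) of a divisor: `Σ_v |D v|`. -/
def size (D : Divisor K F) : ℕ := D.sum fun _ n => n.natAbs

/-- The exactly bilinear pairing `Λ_δ(D,E) = Σ_{P,Q} D(P) E(Q) δ(P,Q)` on divisors. -/
def Lam (δ : Place K F → Place K F → ℝ) (D E : Divisor K F) : ℝ :=
  D.sum fun P n => E.sum fun Q m => (n : ℝ) * (m : ℝ) * δ P Q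

/-- `Σ_P D(P) h(P)`. -/
def hSum (h : Place K F → ℝ) (D : Divisor K F) : ℝ := D.sum fun P n => (n : ℝ) * h P

/-- The quadratic form `q_δ(D) = −Λ_δ(D − deg D·P₀, D − deg D·P₀)`. -/
def qForm (δ : Place K F → Place K F → ℝ) (P₀ : Place K F) (D : Divisor K F) : ℝ :=
  - Lam δ (D - Divisor.degree D • pt P₀) (D - Divisor.degree D • pt P₀)

/-- `φ` is a `K`-basis of `L(m P₀)`. -/
def IsEmbBasis {ι : Type*} (P₀ : Place K F) (m : ℕ) (φ : ι → F) : Prop :=
  LinearIndependent K φ ∧ Submodule.span K (Set.range φ) = riemannRochSpace ((m : ℤ) • pt P₀)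

/-- An index at which `φ` has the smallest order at `P` (the coordinate used to normalise). -/
def minIdx {ι : Type*} [Nonempty ι] (φ : ι → F) (P : Place K F) : ι := by
  classical
  exact if h : ∃ i, ∀ j, P.ord (φ i) ≤ P.ord (φ j) then h.choose else Classical.arbitrary ι

/-- Projective coordinates of the place `P` in the map given by `φ`: the values at `P` of
`φ_i / φ_{i₀}`, `i₀ = minIdx φ P`. -/
def pointVec {ι : Type*} [Nonempty ι] (φ : ι → F) (P : Place K F) : ι → K :=
  fun i => evalAt P (φ i / φ (minIdx φ P))

/-- A uniformiser at `P` (junk `1` if none). -/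
def unif (P : Place K F) : F := by
  classical
  exact if h : ∃ t : F, P.ord t = 1 then h.choose else 1

/-- First-order Taylor coefficients at `P` of the normalised coordinates, w.r.t. `unif P`. -/
def derivVec {ι : Type*} [Nonempty ι] (φ : ι → F) (P : Place K F) : ι → K :=
  fun i => evalAt P ((φ i / φ (minIdx φ P) - algebraMap K F (pointVec φ P i)) / unif P)

/-- The 2×2 minors of `(φ(P); φ(Q))`. -/
def minorVec {ι : Type*} [Nonempty ι] (φ : ι → F) (P Q : Place K F) : ι × ι → K :=
  fun ab => pointVec φ P ab.1 * pointVec φ Q ab.2 - pointVec φ P ab.2 * pointVec φ Q ab.1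

/-- The Gauss (tangent line) vector `φ(P) ∧ φ'(P)`. -/
def gaussVec {ι : Type*} [Nonempty ι] (φ : ι → F) (P : Place K F) : ι × ι → K :=
  fun ab => pointVec φ P ab.1 * derivVec φ P ab.2 - pointVec φ P ab.2 * derivVec φ P ab.1

end Generic

/-! ### Absolute heights of tuples of algebraic numbers -/

/-- `ℚ̄`. -/
abbrev Qbar : Type := AlgebraicClosure ℚ

/-- The absolute Galois group of `ℚ` (same as `Fermat.Agent.S17.GQ`). -/
abbrev GalQ : Type := Qbar ≃ₐ[ℚ] Qbar

/-- Absolute logarithmic Weil height of a finite tuple `x` of algebraic numbers: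
`[L:ℚ]⁻¹ · Height.logHeight` of `x` viewed in the number field `L = ℚ(x_i)`. -/
def hbar {ι : Type*} [Finite ι] (x : ι → Qbar) : ℝ :=
  haveI : FiniteDimensional ℚ (IntermediateField.adjoin ℚ (Set.range x)) :=
    IntermediateField.finiteDimensional_adjoin
      (fun a _ => ((AlgebraicClosure.isAlgebraic ℚ).isAlgebraic a).isIntegral)
  haveI : NumberField (IntermediateField.adjoin ℚ (Set.range x)) := {}
  (Module.finrank ℚ (IntermediateField.adjoin ℚ (Set.range x)) : ℝ)⁻¹ *
    Height.logHeight (fun i => (⟨x i, IntermediateField.subset_adjoin ℚ _ (Set.mem_range_self i)⟩ :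
      IntermediateField.adjoin ℚ (Set.range x)))

/-! ### The arithmetic curve `F₀ ⊆ ℚ((q))` -/

section Arithmetic

variable (F₀ : IntermediateField ℚ (LaurentSeries ℚ))

/-- The function field over `ℚ̄` (same as `Fermat.Agent.S17.FBar`). -/
abbrev FB : Type := ↥(laurentBaseChange Qbar F₀)

variable {F₀}

/-- Point height in the map given by `φ`. -/
def hX {ι : Type*} [Finite ι] [Nonempty ι] (φ : ι → FB F₀) (P : Place Qbar (FB F₀)) : ℝ :=
  hbar (pointVec φ P)

/-- Δ-height with the diagonal convention. -/
def delta {ι : Type*} [Finite ι] [Nonempty ι] (φ : ι → FB F₀) (P Q : Place Qbar (FB F₀)) : ℝ := by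
  classical
  exact hX φ P + hX φ Q - (if P = Q then hbar (gaussVec φ P) else hbar (minorVec φ P Q))

/-- Galois-stable divisors. -/
def IsStable (D : Divisor Qbar (FB F₀)) : Prop :=
  ∀ σ : GalQ, arithmeticGalois F₀ σ • D = D

/-- Threshold for the degree `m` of the embedding `L(m P₀)` (ONE place to change it). -/
def mMin (g : ℕ) : ℕ := 2 * g + 1

variable (F₀) in
/-- The common set-up of all height packages: a Galois-fixed place `P₀` and a `ℚ`-rational basis `φ`
(with `φ 0 = 1`) of `L(m P₀)`, `m ≥ mMin g`, `g = genusFF`.  All H-interface statements are about an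
ARBITRARY `S : Setup F₀`; `exists_setup` (BR + FND) provides one. -/
structure Setup where
  /-- the base place (cusp `q = 0`) -/
  P₀ : Place Qbar (FB F₀)
  fixed : ∀ σ : GalQ, arithmeticGalois F₀ σ • P₀ = P₀
  /-- degree of the embedding -/
  m : ℕ
  hm : mMin (genusFF Qbar (FB F₀)) ≤ m
  /-- projective dimension of the embedding -/
  r : ℕ
  /-- the embedding functions, a rational basis of `L(m P₀)` -/
  φ : Fin (r + 1) → FB F₀
  basis : IsEmbBasis P₀ m φ
  rat : ∀ (σ : GalQ) (i : Fin (r + 1)), arithmeticGalois F₀ σ • φ i = φ i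
  one : φ 0 = 1

end Arithmetic

end Fermat.Agent.S17.H
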