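/-
S17 project, BR + FND glue for the H interface (`exists_setup`) — helper3657.
STRUCTURE-FREE core: Mathlib + Prelude + `WA/Descent7618.lean` (helper7618, Mathlib + Prelude only).

* `smul_mem_riemannRochSpace` : `L(D)` is stable under a semilinear automorphism fixing `D`;
* `smul_zsmul_single`, `zsmul_single_apply`, `one_mem_riemannRochSpace_zsmul_single`,
  `ord_eq_neg_of_mem_of_notMem` (a function in `L(mP) ∖ L((m-1)P)` has order exactly `-m` at `P`);
* `constZero V` : the part of a subspace of `ℚ̄·F₀ ⊆ ℚ̄((q))` with vanishing constant coefficient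
  (a Galois-stable complement of the constants);
* `exists_fixed_family` : a Galois-stable finite-dimensional subspace containing `1` has a basis
  `φ : Fin (r+1) → ℚ̄·F₀` of Galois-fixed vectors with `φ 0 = 1`;
* `exists_fixed_family_top` : flag version, the last basis vector lies outside a given stable
  hyperplane `V' ∋ 1`.
-/
import Fermat.Prelude.Def_AlgebraicCurve_Repartitions
import Fermat.Agent.S17.WA.Descent7618

set_option autoImplicit false

open AlgebraicCurve ModularCurve Module

namespace Fermat.Agent.S17.H.H3657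

universe u

/-- `ℚ̄`. -/
abbrev Qb : Type := AlgebraicClosure ℚ

/-- The function field `ℚ̄·F₀ ⊆ ℚ̄((q))`. -/
abbrev FBc (F₀ : IntermediateField ℚ (LaurentSeries ℚ)) : Type := ↥(laurentBaseChange Qb F₀)

/-- The absolute Galois group of `ℚ`. -/
abbrev Gal : Type := Qb ≃ₐ[ℚ] Qb

section Generic

variable {K : Type*} {F : Type u} [Field K] [Field F] [Algebra K F]

/-- `L(D)` is stable under a semilinear automorphism fixing `D`. -/
theorem smul_mem_riemannRochSpace (g : SemilinearAut K F) {D : Divisor K F} (hD : g • D = D)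
    {x : F} (hx : x ∈ riemannRochSpace D) : g • x ∈ riemannRochSpace D := by
  rw [mem_riemannRochSpace_iff] at hx ⊢
  intro v
  rcases hx (g⁻¹ • v) with h0 | h
  · left
    rw [h0, smul_zero]
  · right
    have h1 : (g • (g⁻¹ • v)).ord (g • x) = (g⁻¹ • v).ord x := SemilinearAut.ord_smul g (g⁻¹ • v) x
    rw [smul_inv_smul] at h1
    have h2 : D (g⁻¹ • v) = D v := by
      rw [← SemilinearAut.divisor_smul_apply, hD]
    rw [h1, ← h2]
    exact h

/-- `m • [P]` is fixed by a semilinear automorphism fixing `P`. -/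
theorem smul_zsmul_single (g : SemilinearAut K F) {P : Place K F} (hP : g • P = P) (m : ℤ) :
    g • (m • (Finsupp.single P 1 : Divisor K F)) = m • (Finsupp.single P 1 : Divisor K F) := by
  rw [smul_comm, SemilinearAut.smul_single, hP]

theorem zsmul_single_apply [DecidableEq (Place K F)] (P v : Place K F) (m : ℤ) :
    (m • (Finsupp.single P 1 : Divisor K F)) v = if P = v then m else 0 := by
  rw [Finsupp.smul_apply, Finsupp.single_apply]
  split_ifs <;> simp

/-- `1 ∈ L(m P)` for `m ≥ 0`. -/
theorem one_mem_riemannRochSpace_zsmul_single (P : Place K F) {m : ℤ} (hm : 0 ≤ m) :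
    (1 : F) ∈ riemannRochSpace (m • (Finsupp.single P 1 : Divisor K F)) := by
  classical
  rw [mem_riemannRochSpace_iff]
  intro v
  right
  rw [Place.ord_one, zsmul_single_apply]
  split_ifs <;> omega

/-- A function in `L(m P)` but not in `L((m-1) P)` has order exactly `-m` at `P`. -/
theorem ord_eq_neg_of_mem_of_notMem (P : Place K F) (m : ℤ) {w : F}
    (hw : w ∈ riemannRochSpace (m • (Finsupp.single P 1 : Divisor K F)))
    (hw' : w ∉ riemannRochSpace
      (m • (Finsupp.single P 1 : Divisor K F) - (Finsupp.single P 1 : Divisor K F))) :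
    P.ord w = -m := by
  classical
  rw [mem_riemannRochSpace_iff] at hw hw'
  simp only [not_forall, not_or] at hw'
  obtain ⟨v, hw0, hv⟩ := hw'
  have h1 := (hw v).resolve_left hw0
  by_cases hPv : P = v
  · subst hPv
    simp only [zsmul_single_apply, Finsupp.sub_apply, Finsupp.single_apply, if_true] at h1 hv
    omega
  · simp only [zsmul_single_apply, Finsupp.sub_apply, Finsupp.single_apply, if_neg hPv] at h1 hv
    omega

end Generic

section Arithmetic

variable (F₀ : IntermediateField ℚ (LaurentSeries ℚ))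

/-- The part of a subspace of `ℚ̄·F₀` with vanishing constant Laurent coefficient. -/
def constZero (V : Submodule Qb (FBc F₀)) : Submodule Qb (FBc F₀) where
  carrier := {f | f ∈ V ∧ (f : LaurentSeries Qb).coeff 0 = 0}
  zero_mem' := ⟨V.zero_mem, by simp⟩
  add_mem' := by
    rintro a b ⟨ha, ha0⟩ ⟨hb, hb0⟩
    refine ⟨V.add_mem ha hb, ?_⟩
    show ((a : LaurentSeries Qb) + (b : LaurentSeries Qb)).coeff 0 = 0
    rw [HahnSeries.coeff_add, ha0, hb0, add_zero]
  smul_mem' := by
    rintro c f ⟨hf, hf0⟩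
    refine ⟨V.smul_mem c hf, ?_⟩
    show ((c • f : FBc F₀) : LaurentSeries Qb).coeff 0 = 0
    rw [WA.H7618.coe_smul_intermediateField, HahnSeries.coeff_smul, hf0, smul_zero]

theorem mem_constZero {V : Submodule Qb (FBc F₀)} {f : FBc F₀} :
    f ∈ constZero F₀ V ↔ f ∈ V ∧ (f : LaurentSeries Qb).coeff 0 = 0 := Iff.rfl

theorem constZero_le (V : Submodule Qb (FBc F₀)) : constZero F₀ V ≤ V := fun _ h => h.1

theorem coeff_zero_one : ((1 : FBc F₀) : LaurentSeries Qb).coeff 0 = 1 := by
  show (1 : LaurentSeries Qb).coeff 0 = 1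
  rw [HahnSeries.coeff_one, if_pos rfl]

theorem one_notMem_constZero (V : Submodule Qb (FBc F₀)) : (1 : FBc F₀) ∉ constZero F₀ V := by
  rintro ⟨-, h⟩
  rw [coeff_zero_one] at h
  exact one_ne_zero h

/-- Decomposition `f = c • 1 + (f - c • 1)` with `c` the constant coefficient. -/
theorem sub_smul_one_mem_constZero {V : Submodule Qb (FBc F₀)} (h1 : (1 : FBc F₀) ∈ V)
    {f : FBc F₀} (hf : f ∈ V) :
    f - (f : LaurentSeries Qb).coeff 0 • (1 : FBc F₀) ∈ constZero F₀ V := by
  refine ⟨V.sub_mem hf (V.smul_mem _ h1), ?_⟩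
  show ((f : LaurentSeries Qb) -
    (((f : LaurentSeries Qb).coeff 0 • (1 : FBc F₀) : FBc F₀) : LaurentSeries Qb)).coeff 0 = 0
  rw [WA.H7618.coe_smul_intermediateField, HahnSeries.coeff_sub, HahnSeries.coeff_smul,
    coeff_zero_one, smul_eq_mul, mul_one, sub_self]

/-- `constZero V` is Galois stable if `V` is. -/
theorem smul_mem_constZero {V : Submodule Qb (FBc F₀)}
    (hV : ∀ σ : Gal, ∀ x ∈ V, arithmeticGalois F₀ σ • x ∈ V) (σ : Gal) {x : FBc F₀}
    (hx : x ∈ constZero F₀ V) : arithmeticGalois F₀ σ • x ∈ constZero F₀ V := by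
  refine ⟨hV σ x hx.1, ?_⟩
  rw [coe_arithmeticGalois_smul, coeffMap_coeff, hx.2, map_zero]

/-- A Galois-stable finite-dimensional subspace containing `1` has a basis of Galois-fixed
vectors whose first member is `1`. -/
theorem exists_fixed_family (V : Submodule Qb (FBc F₀)) [Module.Finite Qb V]
    (hV : ∀ σ : Gal, ∀ x ∈ V, arithmeticGalois F₀ σ • x ∈ V) (h1V : (1 : FBc F₀) ∈ V) :
    ∃ (r : ℕ) (φ : Fin (r + 1) → FBc F₀), LinearIndependent Qb φ ∧
      Submodule.span Qb (Set.range φ) = V ∧
      (∀ (σ : Gal) (i : Fin (r + 1)), arithmeticGalois F₀ σ • φ i = φ i) ∧ φ 0 = 1 := by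
  classical
  have hfin : Module.Finite Qb (constZero F₀ V) :=
    Submodule.finiteDimensional_of_le (constZero_le F₀ V)
  obtain ⟨b, hb⟩ := WA.H7618.exists_galois_fixed_basis F₀ (Set.univ : Set Gal) (constZero F₀ V)
    (fun σ _ x hx => smul_mem_constZero F₀ hV σ hx)
  have hvli : LinearIndependent Qb (fun i => ((b i : constZero F₀ V) : FBc F₀)) :=
    b.linearIndependent.map' (constZero F₀ V).subtype (Submodule.ker_subtype _)
  have hvspan : Submodule.span Qb (Set.range (fun i => ((b i : constZero F₀ V) : FBc F₀)))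
      = constZero F₀ V := by
    have h2 := congrArg (Submodule.map (constZero F₀ V).subtype) b.span_eq
    rw [Submodule.map_span, Submodule.map_subtype_top, ← Set.range_comp] at h2
    exact h2
  refine ⟨finrank Qb (constZero F₀ V),
    Fin.cons 1 (fun i => ((b i : constZero F₀ V) : FBc F₀)), ?_, ?_, ?_, rfl⟩
  · rw [linearIndependent_finCons]
    refine ⟨hvli, ?_⟩
    rw [hvspan]
    exact one_notMem_constZero F₀ V
  · apply le_antisymm
    · rw [Submodule.span_le]
      rintro _ ⟨i, rfl⟩
      refine Fin.cases ?_ (fun j => ?_) i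
      · exact h1V
      · exact constZero_le F₀ V (b j).2
    · intro f hf
      have hdec : f = (f : LaurentSeries Qb).coeff 0 • (1 : FBc F₀) +
          (f - (f : LaurentSeries Qb).coeff 0 • (1 : FBc F₀)) := by abel
      rw [hdec]
      refine Submodule.add_mem _ (Submodule.smul_mem _ _ (Submodule.subset_span ⟨0, rfl⟩)) ?_
      have hmem := sub_smul_one_mem_constZero F₀ h1V hf
      rw [← hvspan] at hmem
      refine Submodule.span_mono ?_ hmem
      rintro _ ⟨j, rfl⟩
      exact ⟨j.succ, rfl⟩
  · intro σ i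
    refine Fin.cases ?_ (fun j => ?_) i
    · exact smul_one _
    · exact hb j σ (Set.mem_univ σ)

/-- Flag version: for Galois-stable `1 ∈ V' ≤ V` with `dim V = dim V' + 1` there is a basis of
Galois-fixed vectors of `V` with first member `1` and last member outside `V'`. -/
theorem exists_fixed_family_top (V V' : Submodule Qb (FBc F₀)) [Module.Finite Qb V]
    (hV : ∀ σ : Gal, ∀ x ∈ V, arithmeticGalois F₀ σ • x ∈ V)
    (hV' : ∀ σ : Gal, ∀ x ∈ V', arithmeticGalois F₀ σ • x ∈ V')
    (hle : V' ≤ V) (h1 : (1 : FBc F₀) ∈ V') (hrank : finrank Qb V = finrank Qb V' + 1) :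
    ∃ (r : ℕ) (φ : Fin (r + 1) → FBc F₀), LinearIndependent Qb φ ∧
      Submodule.span Qb (Set.range φ) = V ∧
      (∀ (σ : Gal) (i : Fin (r + 1)), arithmeticGalois F₀ σ • φ i = φ i) ∧ φ 0 = 1 ∧
      φ (Fin.last r) ∉ V' := by
  classical
  have hfin' : Module.Finite Qb V' := Submodule.finiteDimensional_of_le hle
  obtain ⟨r', φ', hli', hspan', hfix', hone'⟩ := exists_fixed_family F₀ V' hV' h1
  have hnot : ¬ V ≤ V' := by
    intro h
    have := Submodule.finrank_mono h
    omega
  obtain ⟨w, hwV, hwfix, hwnot⟩ := WA.H7618.exists_galois_fixed_notMem F₀ (Set.univ : Set Gal) V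
    (fun σ _ x hx => hV σ x hx) {V'} (by simpa using hnot)
  have hwV' : w ∉ V' := hwnot V' (Finset.mem_singleton_self V')
  have hli : LinearIndependent Qb (Fin.snoc φ' w : Fin (r' + 1 + 1) → FBc F₀) := by
    rw [linearIndependent_finSnoc]
    exact ⟨hli', by rw [hspan']; exact hwV'⟩
  refine ⟨r' + 1, Fin.snoc φ' w, hli, ?_, ?_, ?_, ?_⟩
  · have hsub : Submodule.span Qb (Set.range (Fin.snoc φ' w : Fin (r' + 1 + 1) → FBc F₀)) ≤ V := by
      rw [Submodule.span_le]
      rintro _ ⟨i, rfl⟩
      refine Fin.lastCases ?_ (fun j => ?_) i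
      · rw [Fin.snoc_last]
        exact hwV
      · rw [Fin.snoc_castSucc]
        exact hle (hspan' ▸ Submodule.subset_span ⟨j, rfl⟩)
    apply Submodule.eq_of_le_of_finrank_eq hsub
    rw [finrank_span_eq_card hli, hrank, ← hspan', finrank_span_eq_card hli']
    simp
  · intro σ i
    refine Fin.lastCases ?_ (fun j => ?_) i
    · rw [Fin.snoc_last]
      exact hwfix σ (Set.mem_univ σ)
    · rw [Fin.snoc_castSucc]
      exact hfix' σ j
  · have h0 : (0 : Fin (r' + 1 + 1)) = Fin.castSucc (0 : Fin (r' + 1)) := rfl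
    rw [h0, Fin.snoc_castSucc]
    exact hone'
  · rw [Fin.snoc_last]
    exact hwV'

end Arithmetic

end Fermat.Agent.S17.H.H3657
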