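/-
S17 project, H interface deliverable `exists_setup` (BR + FND) — helper3657.

`H3657.exists_setup F₀ : Nonempty (Setup F₀)` = EXACT statement of `Fermat/Agent/S17/H/Interfaces.lean`
(v2, THE TREE of origin/helper4498 v1), on the inputs named in BOARD v1:
  * `BR/QPlace1236.lean` (helper1236, in THE TREE): the Galois-fixed place `q = 0`;
  * landed `Fermat.Agent.S27.Spine.rrFacts_of_isCurveOver`: `L(D)` is finite-dimensional;
  * `WA/Descent7618.lean` (helper7618; Mathlib + Prelude): Galois-fixed bases of stable subspaces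
    (through `H/SetupCore3657.lean`).
More general: `exists_setup_of_place` (ANY Galois-fixed place `P₀`, ANY `m ≥ mMin g`).
-/
import Fermat.Agent.S17.H.Defs
import Fermat.Agent.S17.BR.QPlace1236
import Fermat.Agent.S27.Spine.FromA
import Fermat.Agent.S17.H.SetupCore3657

set_option autoImplicit false

open AlgebraicCurve ModularCurve Module

namespace Fermat.Agent.S17.H.H3657

open Fermat.Agent.S17.H Fermat.Agent.S17.FND

variable (F₀ : IntermediateField ℚ (LaurentSeries ℚ))
  [IsCurveOver Qbar (FB F₀)] [Algebra.EssFiniteType Qbar (FB F₀)]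

/-- A rational basis of `L(m P₀)` containing `1`, for any Galois-fixed place `P₀`. -/
theorem exists_rational_basis_of_place (P₀ : Place Qbar (FB F₀))
    (hfix : ∀ σ : GalQ, arithmeticGalois F₀ σ • P₀ = P₀) (m : ℕ) :
    ∃ (r : ℕ) (φ : Fin (r + 1) → FB F₀), IsEmbBasis P₀ m φ ∧
      (∀ (σ : GalQ) (i : Fin (r + 1)), arithmeticGalois F₀ σ • φ i = φ i) ∧ φ 0 = 1 := by
  have hfin : Module.Finite Qbar (riemannRochSpace ((m : ℤ) • pt P₀)) :=
    (Fermat.Agent.S27.Spine.rrFacts_of_isCurveOver (K := Qbar) (F := FB F₀)).finite _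
  obtain ⟨r, φ, hli, hspan, hrat, hone⟩ := exists_fixed_family F₀
    (riemannRochSpace ((m : ℤ) • pt P₀))
    (fun σ x hx => smul_mem_riemannRochSpace (arithmeticGalois F₀ σ)
      (smul_zsmul_single (arithmeticGalois F₀ σ) (hfix σ) m) hx)
    (one_mem_riemannRochSpace_zsmul_single P₀ (Int.natCast_nonneg m))
  exact ⟨r, φ, ⟨hli, hspan⟩, hrat, hone⟩

/-- A set-up with prescribed Galois-fixed base place and prescribed degree `m ≥ mMin g`. -/
theorem exists_setup_of_place (P₀ : Place Qbar (FB F₀))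
    (hfix : ∀ σ : GalQ, arithmeticGalois F₀ σ • P₀ = P₀) (m : ℕ)
    (hm : mMin (genusFF Qbar (FB F₀)) ≤ m) :
    ∃ S : Setup F₀, S.P₀ = P₀ ∧ S.m = m := by
  obtain ⟨r, φ, hbasis, hrat, hone⟩ := exists_rational_basis_of_place F₀ P₀ hfix m
  exact ⟨{
    P₀ := P₀
    fixed := hfix
    m := m
    hm := hm
    r := r
    φ := φ
    basis := hbasis
    rat := hrat
    one := hone }, rfl, rfl⟩

/-- **BR + FND**: a set-up exists (statement of `H/Interfaces.lean` v2, verbatim). -/
theorem exists_setup : Nonempty (Setup F₀) := by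
  obtain ⟨S, -⟩ := exists_setup_of_place F₀ (BR.H1236.qPlace (L := Qbar) F₀)
    (fun σ => BR.H1236.smul_qPlace F₀ σ) (mMin (genusFF Qbar (FB F₀))) le_rfl
  exact ⟨S⟩

end Fermat.Agent.S17.H.H3657
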