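/-
S17 project — package H (heights): FROZEN INTERFACE between the H-packages (sub-architect helper2014). v2 (03:58 UTC).
(v2: aligned with FND: effectivity `0 ≤ D`, genus `genusFF Qbar (FB F₀)`, rigidity `0 ≤ D ∧ ell D = 1`.)

Each `sorry` below is the DELIVERABLE of one package (named in the docstring); package QF
(`Fermat/Agent/S17/QF/Skel.lean`) proves `exists_height` of `Top.lean` from exactly these statements.
Do NOT change a statement; if you need a different hypothesis, push `BUG S17 H <reason>` and tell helper2014.
Owners prove their statement in their own package file (any name/namespace), and the H lead rewires.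

All statements are about an arbitrary `S : Setup F₀` (see `Defs.lean`):
  `S.P₀` Galois-fixed place, `S.φ : Fin (S.r+1) → FB F₀` rational basis of `L(S.m P₀)`, `φ 0 = 1`, `S.m ≥ 2g+1`,
  `hX S.φ P = hbar (pointVec S.φ P)`, `delta S.φ P Q` (Δ-height, diagonal convention), `Lam`, `qForm`, `hSum`.

Mathematical content (see notes of helper2014 / helper4498 / helper5916 / helper8697):
  (W)   `delta_classInv`  : |Λ_δ(div u, Q − P₀)| ≤ C(M) for all functions u of size ≤ M and ALL places Q
                            (also Q or P₀ in the support of div u: diagonal convention)            — INC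
  (POS) `delta_pos`       : q_δ(D) ≥ c·Σ_P D(P) h_X(P) − C for rigid effective D, P₀ ∉ D, deg D ≤ g — CERT
  (N)   `northcott_stable`: finitely many Galois-stable effective D of bounded degree and height  — HT
-/
import Fermat.Agent.S17.H.Defs
import Fermat.Agent.S17.HT.Bridge
import Fermat.Agent.S17.HT.Stable
import Fermat.Agent.S17.H.Setup3657
import Fermat.Agent.S17.PLK.Pos

set_option autoImplicit false

open AlgebraicCurve ModularCurve

namespace Fermat.Agent.S17.H

open Fermat.Agent.S17.FND

variable (F₀ : IntermediateField ℚ (LaurentSeries ℚ))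
  [IsCurveOver Qbar (FB F₀)] [Algebra.EssFiniteType Qbar (FB F₀)]

/-- **BR + FND**: a set-up exists (Galois-fixed place `q = 0`; Galois descent of `L(m P₀)` gives a rational
basis containing `1`). -/
theorem exists_setup : Nonempty (Setup F₀) :=
  H3657.exists_setup F₀

variable {F₀}

/-- **HT**: heights are nonnegative. -/
theorem hbar_nonneg {ι : Type*} [Finite ι] (x : ι → Qbar) : 0 ≤ hbar x :=
  HT.hbar_nonneg x

/-- **HT**: the absolute height is invariant under scaling (product formula). -/
theorem hbar_smul {ι : Type*} [Finite ι] (x : ι → Qbar) {c : Qbar} (hc : c ≠ 0) :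
    hbar (c • x) = hbar x :=
  HT.hbar_smul x hc

/-- **HT**: the absolute height is Galois invariant. -/
theorem hbar_galois {ι : Type*} [Finite ι] (x : ι → Qbar) (σ : GalQ) :
    hbar (fun i => σ (x i)) = hbar x :=
  HT.hbar_galois x σ

/-- **HT**: the absolute height of a tensor product is the sum of the heights. -/
theorem hbar_tensor {ι κ : Type*} [Finite ι] [Finite κ] {x : ι → Qbar} {y : κ → Qbar}
    (hx : x ≠ 0) (hy : y ≠ 0) :
    hbar (fun p : ι × κ => x p.1 * y p.2) = hbar x + hbar y :=
  HT.hbar_tensor hx hy

/-- **HT**: on rational tuples the absolute height is Mathlib's `Height.logHeight` over `ℚ`. -/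
theorem hbar_rat {ι : Type*} [Finite ι] (x : ι → ℚ) :
    hbar (fun i => algebraMap ℚ Qbar (x i)) = Height.logHeight x :=
  HT.hbar_rat x

/-- **HT** (trivial from the definitions): the Δ-height is symmetric. -/
theorem delta_symm (S : Setup F₀) (P Q : Place Qbar (FB F₀)) :
    delta S.φ P Q = delta S.φ Q P :=
  HT.delta_symm S P Q

/-- **INC** (W): class invariance of the pairing, INCLUDING the diagonal case. -/
theorem delta_classInv (S : Setup F₀) (M : ℕ) :
    ∃ C : ℝ, ∀ D : Divisor Qbar (FB F₀), Divisor.IsPrincipal D → size D ≤ M →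
      ∀ Q : Place Qbar (FB F₀), |Lam (delta S.φ) D (pt Q - pt S.P₀)| ≤ C :=
  PLK.delta_classInv S M

/-- **CERT** (POS): positivity of the quadratic form on rigid effective divisors of degree `≤ g`
avoiding `P₀` (canonical alternant inequality + height comparisons on the curve). -/
theorem delta_pos (S : Setup F₀) :
    ∃ c : ℝ, 0 < c ∧ ∃ C : ℝ, ∀ D : Divisor Qbar (FB F₀), IsRigid D → D S.P₀ = 0 →
      Divisor.degree D ≤ genusFF Qbar (FB F₀) → c * hSum (hX S.φ) D - C ≤ qForm (delta S.φ) S.P₀ D :=
  PLK.delta_pos S

/-- **HT** (N): Northcott for Galois-stable effective divisors of bounded degree. -/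
theorem northcott_stable (S : Setup F₀) (n : ℕ) (B : ℝ) :
    {D : Divisor Qbar (FB F₀) | 0 ≤ D ∧ Divisor.degree D ≤ n ∧ IsStable D ∧
      hSum (hX S.φ) D ≤ B}.Finite :=
  HT.northcott_stable S n B

end Fermat.Agent.S17.H
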